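import Mathlib

/-!
Division of holomorphic functions: if `g` vanishes at every point to order at most the order of
`f`, then `f = h * g` for a holomorphic `h`.  Versions on open subsets of `ℂ` and on the upper half
plane.
-/

set_option autoImplicit false

noncomputable section

namespace Fermat.Agent.S20_helper61

open Filter Topology UpperHalfPlane
open scoped Manifold

/-- The quotient of two analytic functions has nonnegative order when the orders compare. -/
theorem order_div_nonneg {f g : ℂ → ℂ} {z : ℂ} (hf : AnalyticAt ℂ f z) (hg : AnalyticAt ℂ g z)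
    (h1 : analyticOrderAt g z ≤ analyticOrderAt f z) : 0 ≤ meromorphicOrderAt (f / g) z := by
  rw [meromorphicOrderAt_div hf.meromorphicAt hg.meromorphicAt,
    hf.meromorphicOrderAt_eq, hg.meromorphicOrderAt_eq]
  cases hgo : analyticOrderAt g z with
  | top =>
    rw [hgo, top_le_iff] at h1
    rw [h1]
    simp
  | coe n =>
    cases hfo : analyticOrderAt f z with
    | top => simp
    | coe m =>
      rw [hgo, hfo] at h1
      have h2 : n ≤ m := by exact_mod_cast h1
      simp only [ENat.map_natCast]
      rw [← WithTop.LinearOrderedAddCommGroup.coe_sub, ← WithTop.coe_zero, WithTop.coe_le_coe]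
      omega

/-- Division of analytic functions on an open set under a pointwise inequality of orders. -/
theorem exists_analyticOnNhd_mul_eq {U : Set ℂ} (hU : IsOpen U) {f g : ℂ → ℂ}
    (hf : AnalyticOnNhd ℂ f U) (hg : AnalyticOnNhd ℂ g U)
    (hord : ∀ z ∈ U, analyticOrderAt g z ≤ analyticOrderAt f z) :
    ∃ h : ℂ → ℂ, AnalyticOnNhd ℂ h U ∧ ∀ z ∈ U, h z * g z = f z := by
  have hm : MeromorphicOn (f / g) U := fun z hz =>
    (hf z hz).meromorphicAt.div (hg z hz).meromorphicAt
  refine ⟨toMeromorphicNFOn (f / g) U, ?_, ?_⟩
  · intro z hz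
    have hnf : MeromorphicNFAt (toMeromorphicNFOn (f / g) U) z :=
      meromorphicNFOn_toMeromorphicNFOn (f / g) U hz
    rw [← hnf.meromorphicOrderAt_nonneg_iff_analyticAt,
      meromorphicOrderAt_toMeromorphicNFOn hm hz]
    exact order_div_nonneg (hf z hz) (hg z hz) (hord z hz)
  · intro z hz
    set h := toMeromorphicNFOn (f / g) U with hh
    have hha : AnalyticAt ℂ h z := by
      have hnf : MeromorphicNFAt h z := meromorphicNFOn_toMeromorphicNFOn (f / g) U hz
      rw [← hnf.meromorphicOrderAt_nonneg_iff_analyticAt,
        meromorphicOrderAt_toMeromorphicNFOn hm hz]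
      exact order_div_nonneg (hf z hz) (hg z hz) (hord z hz)
    have hcont : ContinuousAt (fun w => h w * g w - f w) z :=
      ((hha.continuousAt.mul (hg z hz).continuousAt).sub (hf z hz).continuousAt)
    have hev : (fun w => h w * g w - f w) =ᶠ[𝓝[≠] z] fun _ => (0 : ℂ) := by
      have h1 : h =ᶠ[𝓝[≠] z] f / g := hm.toMeromorphicNFOn_eq_self_on_nhdsNE hz
      have h2 : ∀ᶠ w in 𝓝[≠] z, w ∈ U :=
        eventually_nhdsWithin_of_eventually_nhds (hU.mem_nhds hz)
      filter_upwards [h1, h2] with w hw hwU
      rw [hw, Pi.div_apply]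
      by_cases hgw : g w = 0
      · have h3 : analyticOrderAt g w ≠ 0 := by
          rw [(hg w hwU).analyticOrderAt_ne_zero]
          exact hgw
        have h4 : analyticOrderAt f w ≠ 0 := by
          intro h5
          have := hord w hwU
          rw [h5, nonpos_iff_eq_zero] at this
          exact h3 this
        rw [(hf w hwU).analyticOrderAt_ne_zero] at h4
        rw [hgw, h4]
        simp
      · rw [div_mul_cancel₀ _ hgw, sub_self]
    have h0 : Tendsto (fun w => h w * g w - f w) (𝓝[≠] z) (𝓝 (h z * g z - f z)) :=
      hcont.tendsto.mono_left nhdsWithin_le_nhds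
    have h0' : Tendsto (fun w => h w * g w - f w) (𝓝[≠] z) (𝓝 0) :=
      (tendsto_congr' hev).mpr tendsto_const_nhds
    have := tendsto_nhds_unique h0 h0'
    exact sub_eq_zero.mp this

end Fermat.Agent.S20_helper61

end
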